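import Fermat.Agent.GaussProduct.Gamma

/-!
# Reflection and second differences of Morita's Gamma function

Both are checked at one point of each class and carried along by `x ↦ x + 1`.
-/

set_option autoImplicit false

noncomputable section

open Finset FA.DworkRationality FA.GrossKoblitz
open scoped Classical

namespace Fermat.Agent.ChowlaDworkEvans

variable {p : ℕ} [hp : Fact p.Prime]

local notation "Cp" => ℂ_[p]

/-- `Γ (x) Γ (1 - x)`. -/
def reflectProd (x : ℤ_[p]) : Cp := padicGamma p x * padicGamma p (1 - x)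

theorem reflectProd_add_one (x : ℤ_[p]) :
    reflectProd (x + 1) = (if (p : ℤ_[p]) ∣ x then 1 else -1) * reflectProd x := by
  have e : (1 : ℤ_[p]) - (x + 1) = -x := by ring
  have e' : (1 : ℤ_[p]) - x = -x + 1 := by ring
  rw [reflectProd, reflectProd, e, e']
  by_cases hx : (p : ℤ_[p]) ∣ x
  · rw [if_pos hx, padicGamma_add_one_of_dvd hx, padicGamma_add_one_of_dvd ((dvd_neg).2 hx)]
    ring
  · rw [if_neg hx, padicGamma_add_one_of_not_dvd hx,
      padicGamma_add_one_of_not_dvd (mt (dvd_neg).1 hx), map_neg]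
    ring

theorem prime_dvd_natCast {n : ℕ} : (p : ℤ_[p]) ∣ (n : ℤ_[p]) ↔ p ∣ n := by
  rw [← toZMod_eq_zero_iff, map_natCast, ZMod.natCast_eq_zero_iff]

theorem reflectProd_natCast (hp2 : p ≠ 2) : ∀ n : ℕ, reflectProd ((p * n : ℕ) : ℤ_[p]) = -1 ∧
    ∀ c, 1 ≤ c → c ≤ p → reflectProd ((p * n + c : ℕ) : ℤ_[p]) = (-1) ^ c := by
  intro n
  have hblock : ∀ n, reflectProd ((p * n : ℕ) : ℤ_[p]) = -1 →
      ∀ c, 1 ≤ c → c ≤ p → reflectProd ((p * n + c : ℕ) : ℤ_[p]) = (-1) ^ c := by
    intro n h0 c hc hcp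
    induction c, hc using Nat.le_induction with
    | base =>
      rw [Nat.cast_add, Nat.cast_one, reflectProd_add_one,
        if_pos (prime_dvd_natCast.2 (dvd_mul_right p n)), h0, one_mul, pow_one]
    | succ c hc1 ih =>
      have hnd : ¬ p ∣ p * n + c := fun h => by
        have := Nat.le_of_dvd hc1 ((Nat.dvd_add_right (dvd_mul_right p n)).1 h)
        omega
      rw [← Nat.add_assoc, Nat.cast_succ, reflectProd_add_one,
        if_neg (mt prime_dvd_natCast.1 hnd), ih (by omega), pow_succ]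
      ring
  have h1 : reflectProd ((p * n : ℕ) : ℤ_[p]) = -1 := by
    induction n with
    | zero =>
      rw [mul_zero, Nat.cast_zero, reflectProd, sub_zero, ← zero_add (1 : ℤ_[p]),
        padicGamma_add_one_of_dvd (dvd_zero _), padicGamma_zero]
      ring
    | succ n ih =>
      rw [mul_add, mul_one, hblock n ih p hp.out.one_le le_rfl,
        (hp.out.odd_of_ne_two hp2).neg_one_pow]
  exact ⟨h1, hblock n h1⟩

/-- **Reflection.** -/
theorem padicGamma_reflection (hp2 : p ≠ 2) (z : ℤ_[p]) {c : ℕ} (hc : 1 ≤ c) (hcp : c ≤ p) :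
    padicGamma p ((p : ℤ_[p]) * z + (c : ℤ_[p])) *
      padicGamma p (1 - ((p : ℤ_[p]) * z + (c : ℤ_[p]))) = (-1) ^ c := by
  refine PadicInt.denseRange_natCast.induction_on z (isClosed_eq ?_ continuous_const) fun n => ?_
  · have haff : Continuous fun z : ℤ_[p] => (p : ℤ_[p]) * z + (c : ℤ_[p]) := by fun_prop
    exact (continuous_padicGamma.comp haff).mul
      (continuous_padicGamma.comp (continuous_const.sub haff))
  · have h := (reflectProd_natCast hp2 n).2 c hc hcp
    push_cast at h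
    exact h

theorem reflectProd_congr (hp2 : p ≠ 2) {x y : ℤ_[p]} (h : (p : ℤ_[p]) ∣ x - y) :
    reflectProd x = reflectProd y := by
  obtain ⟨a, z, ha, rfl⟩ := exists_eq_mul_sub y
  obtain ⟨w, hw⟩ := h
  have e : ∀ z : ℤ_[p], reflectProd ((p : ℤ_[p]) * z - (a : ℤ_[p])) = (-1) ^ (p - a) := fun z => by
    have hr := padicGamma_reflection hp2 (z - 1) (c := p - a) (by omega) (by omega)
    rw [Nat.cast_sub ha.le, show (p : ℤ_[p]) * (z - 1) + ((p : ℤ_[p]) - (a : ℤ_[p])) =
      (p : ℤ_[p]) * z - (a : ℤ_[p]) by ring] at hr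
    exact hr
  rw [show x = (p : ℤ_[p]) * (z + w) - (a : ℤ_[p]) by linear_combination hw, e, e]

/-- **The second difference.** -/
theorem padicGamma_second_difference (hp2 : p ≠ 2) {s₁ s₂ : ℤ_[p]} (h₁ : (p : ℤ_[p]) ∣ s₁)
    (h₂ : (p : ℤ_[p]) ∣ s₂) (x : ℤ_[p]) :
    ‖padicGamma p (x + s₁ + s₂) * padicGamma p x -
      padicGamma p (x + s₁) * padicGamma p (x + s₂)‖ ≤ ‖s₁‖ * ‖s₂‖ := by
  set B : ℤ_[p] → Cp := fun t => padicGamma p (t + s₁ + s₂) * padicGamma p t -
    padicGamma p (t + s₁) * padicGamma p (t + s₂) with hB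
  have hstep : ∀ t, ‖B t‖ ≤ ‖s₁‖ * ‖s₂‖ → ‖B (t + 1)‖ ≤ ‖s₁‖ * ‖s₂‖ := fun t ht => by
    simp only [hB] at ht ⊢
    rw [show t + 1 + s₁ + s₂ = t + s₁ + s₂ + 1 by ring, add_right_comm t 1 s₁,
      add_right_comm t 1 s₂]
    by_cases hd : (p : ℤ_[p]) ∣ t
    · rw [padicGamma_add_one_of_dvd hd, padicGamma_add_one_of_dvd (dvd_add hd h₁),
        padicGamma_add_one_of_dvd (dvd_add hd h₂),
        padicGamma_add_one_of_dvd (dvd_add (dvd_add hd h₁) h₂)]
      simpa only [neg_mul_neg] using ht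
    · have hd1 : ¬ (p : ℤ_[p]) ∣ t + s₁ := fun h => hd (by simpa using dvd_sub h h₁)
      have hd2 : ¬ (p : ℤ_[p]) ∣ t + s₂ := fun h => hd (by simpa using dvd_sub h h₂)
      have hd3 : ¬ (p : ℤ_[p]) ∣ t + s₁ + s₂ := fun h => hd1 (by simpa using dvd_sub h h₂)
      rw [padicGamma_add_one_of_not_dvd hd, padicGamma_add_one_of_not_dvd hd1,
        padicGamma_add_one_of_not_dvd hd2, padicGamma_add_one_of_not_dvd hd3]
      refine le_of_eq_of_le (congrArg norm (show _ = toCp p t * toCp p (t + s₁ + s₂) *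
        (padicGamma p (t + s₁ + s₂) * padicGamma p t -
          padicGamma p (t + s₁) * padicGamma p (t + s₂)) + -(toCp p s₁ * toCp p s₂ *
            (padicGamma p (t + s₁) * padicGamma p (t + s₂))) by
          simp only [map_add]; ring)) ?_
      refine (IsUltrametricDist.norm_add_le_max _ _).trans (max_le ?_ ?_)
      · rw [norm_mul, norm_mul, norm_toCp, norm_toCp]
        exact (mul_le_of_le_one_left (norm_nonneg _) (mul_le_one₀ (PadicInt.norm_le_one _)
          (norm_nonneg _) (PadicInt.norm_le_one _))).trans ht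
      · simp only [norm_neg, norm_mul, norm_toCp, norm_padicGamma, mul_one, le_refl]
  have hu : IsUnit (2 : ℤ_[p]) := by
    have := Fermat.Agent.GaussProduct.isUnit_natCast (p := p) (m := 2)
      fun h => hp2 ((Nat.prime_dvd_prime_iff_eq hp.out Nat.prime_two).1 h)
    exact_mod_cast this
  set t₀ : ℤ_[p] := (1 - s₁ - s₂) * Ring.inverse 2 with ht₀
  have h2 : 2 * t₀ = 1 - s₁ - s₂ := by
    rw [ht₀, mul_left_comm, Ring.mul_inverse_cancel _ hu, mul_one]
  have hbase : B t₀ = 0 := by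
    have e := reflectProd_congr hp2 (x := t₀) (y := t₀ + s₁) (by simpa using (dvd_neg).2 h₁)
    simp only [reflectProd] at e
    rw [show 1 - t₀ = t₀ + s₁ + s₂ by linear_combination -h2,
      show 1 - (t₀ + s₁) = t₀ + s₂ by linear_combination -h2] at e
    simp only [hB]
    linear_combination e
  have hall : ∀ n : ℕ, ‖B (t₀ + n)‖ ≤ ‖s₁‖ * ‖s₂‖ := fun n => by
    induction n with
    | zero =>
      rw [Nat.cast_zero, add_zero, hbase, norm_zero]
      positivity
    | succ n ih =>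
      rw [Nat.cast_succ, ← add_assoc]
      exact hstep _ ih
  have hcl : IsClosed {y : ℤ_[p] | ‖B (t₀ + y)‖ ≤ ‖s₁‖ * ‖s₂‖} := by
    have hΓ : ∀ s : ℤ_[p], Continuous fun y : ℤ_[p] => padicGamma p (t₀ + y + s) := fun s =>
      continuous_padicGamma.comp (by fun_prop)
    have h0 : Continuous fun y : ℤ_[p] => padicGamma p (t₀ + y) :=
      continuous_padicGamma.comp (by fun_prop)
    refine isClosed_le ((Continuous.sub (Continuous.mul ?_ h0) ((hΓ s₁).mul (hΓ s₂))).norm)
      continuous_const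
    exact continuous_padicGamma.comp (by fun_prop)
  have := PadicInt.denseRange_natCast.induction_on
    (p := fun y : ℤ_[p] => ‖B (t₀ + y)‖ ≤ ‖s₁‖ * ‖s₂‖) (x - t₀) hcl hall
  rwa [add_sub_cancel] at this

end Fermat.Agent.ChowlaDworkEvans

end
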