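import Fermat.Agent.ChowlaDworkEvans.Values
import Fermat.Agent.GaussProduct.Transfer
import Fermat.Agent.Root.SummaryGaussBinomial
import Mathlib.NumberTheory.JacobiSum.Basic
import Mathlib.NumberTheory.Zsqrtd.GaussianInt

/-!
# The quartic Jacobi sum and the congruence of Chowla, Dwork and Evans

The Jacobi sum of a quartic character is a Gaussian integer of norm `p`, and by Gross and Koblitz it
is minus the unit root; the binomial congruence of Gauss fixes its real part.
-/

set_option autoImplicit false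

noncomputable section

open Finset FA.DworkRationality FA.GrossKoblitz
open scoped Classical

namespace Fermat.Agent.ChowlaDworkEvans

variable {p : ℕ} [hp : Fact p.Prime] {r : ℕ}

local notation "Cp" => ℂ_[p]

variable (hr : p = 4 * r + 1)
include hr

theorem exists_gaussianInt : ∃ z : GaussianInt, ∃ hi : padicGamma p (2 * quarter p) *
      padicGamma p (2 * quarter p) = ((-1 : ℤ) : Cp),
    Zsqrtd.lift ⟨_, hi⟩ z = -unitRoot p ∧
      Zsqrtd.lift ⟨_, hi⟩ (star z) = -((p : Cp) * padicGamma p (3 * quarter p) ^ 2 *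
        padicGamma p (2 * quarter p)) := by
  have hT : padicGamma p (2 * quarter p) * padicGamma p (2 * quarter p) = ((-1 : ℤ) : Cp) := by
    rw [← pow_two, gamma_half_sq hr, Int.cast_neg, Int.cast_one]
  have hr1 : 1 ≤ r := by have := hp.out.two_le; omega
  set T := padicGamma p (2 * quarter p) with hTdef
  set ι := Zsqrtd.lift (R := Cp) ⟨T, hT⟩
  obtain ⟨ω, hω⟩ := FA.Summary.exists_teichmuller_mulChar (p := p) (ZMod p)
  obtain ⟨hord, -⟩ := Fermat.Agent.GaussProduct.exists_eq_omega_inv_pow hω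
  rw [Fintype.card_units, ZMod.card] at hord
  set χ := ω⁻¹ ^ r with hχ
  have hχ2 : χ * χ = ω⁻¹ ^ (2 * r) := by rw [hχ, ← pow_add, two_mul]
  have hχ4 : χ ^ 4 = 1 := by
    rw [hχ, ← pow_mul, show r * 4 = orderOf ω⁻¹ by omega, pow_orderOf_eq_one]
  have hχ6 : χ ^ 3 * χ ^ 3 = χ * χ := by
    rw [← pow_add, show 3 + 3 = 4 + 2 from rfl, pow_add, hχ4, one_mul, pow_two]
  have hne : χ * χ ≠ 1 := by
    rw [hχ2]
    exact pow_ne_one_of_lt_orderOf (by omega) (by omega)
  -- the values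
  have hval : ∀ x : ZMod p, ∃ w : GaussianInt, ι w = χ x ∧ ι (star w) = (χ ^ 3) x := fun x => by
    rcases eq_or_ne x 0 with rfl | hx
    · exact ⟨0, by simp [MulChar.map_zero], by simp [MulChar.map_zero]⟩
    have h4 : χ x ^ 4 = 1 := by
      rw [← MulChar.pow_apply' χ (by norm_num), hχ4, MulChar.one_apply (isUnit_iff_ne_zero.2 hx)]
    rw [MulChar.pow_apply' χ (by norm_num)]
    have : (χ x - 1) * (χ x + 1) * ((χ x - T) * (χ x + T)) = 0 := by
      push_cast at hT
      linear_combination h4 - (χ x ^ 2 - 1) * hT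
    simp only [mul_eq_zero, sub_eq_zero, add_eq_zero_iff_eq_neg] at this
    push_cast at hT
    rcases this with (h | h) | (h | h)
    · exact ⟨1, by simp [h], by simp [h]⟩
    · exact ⟨-1, by simp [h], by rw [h, star_neg, star_one, map_neg, map_one]; norm_num⟩
    · refine ⟨⟨0, 1⟩, ?_, ?_⟩ <;> simp [ι, Zsqrtd.lift, h]
      linear_combination -T * hT
    · refine ⟨⟨0, -1⟩, ?_, ?_⟩ <;> simp [ι, Zsqrtd.lift, h]
      linear_combination T * hT
  choose w hw hw' using hval
  set z : GaussianInt := ∑ x : ZMod p, w x * w (1 - x)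
  have hJ : ι z = jacobiSum χ χ := by
    simp only [z, map_sum, map_mul, hw, jacobiSum]
  have hJ' : ι (star z) = jacobiSum (χ ^ 3) (χ ^ 3) := by
    simp only [z, star_sum, star_mul', map_sum, map_mul, hw', jacobiSum]
  -- Gross and Koblitz
  set ψ := AddChar.zmodChar p (dworkRoot_pow (p := p))
  have hG : ∀ b c : ℕ, b < p - 1 → b = c * r → gaussSum (ω⁻¹ ^ b) ψ =
      -(dworkPi p ^ b * padicGamma p ((c : ℤ_[p]) * quarter p)) := fun b c hb hbc => by
    obtain ⟨x, hx, h⟩ := FA.Summary.gross_koblitz_prime p ω hω hb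
    rw [neg_eq_iff_eq_neg.1 h]
    congr 3
    have h4 := four_mul_quarter hr
    have hru : IsUnit (r : ℤ_[p]) := GaussProduct.isUnit_natCast fun h => by
      have := Nat.le_of_dvd (by omega) h
      omega
    rw [show p - 1 = 4 * r by omega, hbc] at hx
    push_cast at hx
    refine ((isUnit_four hr).mul hru).mul_left_cancel ?_
    linear_combination hx - (c : ℤ_[p]) * (r : ℤ_[p]) * h4
  have hg1 : gaussSum χ ψ = -(dworkPi p ^ r * padicGamma p (quarter p)) := by
    rw [hχ, hG r 1 (by omega) (one_mul r).symm, Nat.cast_one, one_mul]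
  have hg2 : gaussSum (χ * χ) ψ = -(dworkPi p ^ (2 * r) * T) := by
    rw [hχ2, hG (2 * r) 2 (by omega) rfl, Nat.cast_ofNat]
  have hg3 : gaussSum (χ ^ 3) ψ = -(dworkPi p ^ (3 * r) * padicGamma p (3 * quarter p)) := by
    rw [hχ, ← pow_mul, mul_comm r, hG (3 * r) 3 (by omega) rfl, Nat.cast_ofNat]
  have h1 := jacobiSum_mul_nontrivial hne ψ
  have h3 := jacobiSum_mul_nontrivial (φ := χ ^ 3) (χ := χ ^ 3) (hχ6.trans_ne hne) ψ
  rw [hg2, hg1] at h1
  rw [hχ6, hg2, hg3] at h3
  have hT2 := gamma_half_sq hr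
  have hπ : dworkPi p ^ (2 * r) ≠ 0 := pow_ne_zero _ dworkPi_ne_zero
  have hπ4 : dworkPi p ^ (4 * r) = -(p : Cp) := by
    rw [show 4 * r = p - 1 by omega, dworkPi_pow]
  refine ⟨z, hT, ?_, ?_⟩
  · rw [hJ, unitRoot, neg_neg, ← hTdef]
    refine mul_left_cancel₀ hπ ?_
    rw [pow_mul] at h1 ⊢
    linear_combination T * h1 +
      ((dworkPi p ^ 2) ^ r * jacobiSum χ χ) * hT2
  · rw [hJ']
    refine mul_left_cancel₀ hπ ?_
    have e : (dworkPi p ^ (3 * r)) ^ 2 = dworkPi p ^ (2 * r) * dworkPi p ^ (4 * r) := by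
      rw [← pow_mul, ← pow_add]; ring_nf
    rw [hπ4] at e
    linear_combination T * h3 + dworkPi p ^ (2 * r) * jacobiSum (χ ^ 3) (χ ^ 3) * hT2 +
      T * padicGamma p (3 * quarter p) ^ 2 * e

omit hr in
theorem norm_intCast_le_iff (k : ℤ) :
    ‖(k : Cp)‖ ≤ ‖(p : ℤ_[p])‖ ^ 2 ↔ (p : ℤ) ^ 2 ∣ k := by
  rw [← map_intCast (toCp p) k, norm_toCp, PadicInt.norm_p, ← PadicInt.norm_int_le_pow_iff_dvd,
    zpow_neg, zpow_natCast, inv_pow]

omit hr in
theorem norm_intCast_lt_iff (k : ℤ) : ‖(k : Cp)‖ < 1 ↔ (p : ℤ) ∣ k := by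
  rw [← map_intCast (toCp p) k, norm_toCp, PadicInt.norm_int_lt_one_iff_dvd]

omit hr in
theorem norm_prime_lt : ‖(p : ℤ_[p])‖ < 1 := PadicInt.norm_int_lt_one_iff_dvd _ |>.2 dvd_rfl

/-- **The unit root.** -/
theorem unitRoot_spec {a b : ℤ} (h : (p : ℤ) = a ^ 2 + b ^ 2) (ha : a % 4 = 1) :
    unitRoot p ^ 2 - 2 * (a : Cp) * unitRoot p + (p : Cp) = 0 ∧
      ‖(((2 * r).choose r : ℕ) : Cp) - 2 * (a : Cp)‖ < 1 := by
  obtain ⟨hgauss, hbound⟩ := FA.Summary.gauss_binomial p a b h ha (by omega)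
  rw [show (p - 1) / 2 = 2 * r by omega, show (p - 1) / 4 = r by omega] at hgauss
  obtain ⟨z, hi, hz, hz'⟩ := exists_gaussianInt hr
  set ι := Zsqrtd.lift (R := Cp) ⟨_, hi⟩
  set T := padicGamma p (2 * quarter p) with hT
  set C := padicGamma p (3 * quarter p)
  have hC := gamma_quarter_mul hr
  have hT2 := gamma_half_sq hr
  have hprod : -unitRoot p * -((p : Cp) * C ^ 2 * T) = p := by
    have h2 : ((-1 : Cp) ^ (r + 1)) ^ 2 = 1 := by rw [← pow_mul]; simp
    rw [unitRoot, ← hT]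
    linear_combination (-(p : Cp) * padicGamma p (quarter p) ^ 2 * C ^ 2) * hT2 +
      (p : Cp) * (padicGamma p (quarter p) * C + (-1) ^ (r + 1)) * hC + (p : Cp) * h2
  have hnorm : z.norm = p := by
    have e := congrArg ι (Zsqrtd.norm_eq_mul_conj z)
    rw [map_intCast, map_mul, hz, hz', hprod] at e
    exact_mod_cast e
  have hsum : -unitRoot p + -((p : Cp) * C ^ 2 * T) = 2 * (z.re : Cp) := by
    rw [← hz, ← hz', ← map_add, show z + star z = ((2 * z.re : ℤ) : GaussianInt) by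
      ext <;> simp [two_mul], map_intCast]
    push_cast
    rfl
  have hgN : ‖(((2 * r).choose r : ℕ) : Cp) - 2 * (a : Cp)‖ < 1 := by
    have := (norm_intCast_lt_iff (p := p) (((2 * r).choose r : ℕ) - 2 * a)).2
      ((ZMod.intCast_zmod_eq_zero_iff_dvd _ _).1 (by push_cast; rw [hgauss, sub_self]))
    push_cast at this
    exact this
  -- the real part is `-a`
  have hre : z.re = -a := by
    have hN := norm_choose_sub hr
    set N : Cp := ((2 * r).choose r : Cp)
    set e : Cp := (-1) ^ r * 2 ^ (2 * r)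
    have he : ‖e - 1‖ < 1 := by
      have := (norm_intCast_lt_iff (p := p) _).2 (prime_dvd_two_pow hr)
      push_cast at this
      exact this
    have hlt : ‖((2 * a + 2 * z.re : ℤ) : Cp)‖ < 1 := by
      push_cast
      rw [show 2 * (a : Cp) + 2 * z.re = -(N - 2 * a) + (N - e * unitRoot p) +
        ((e - 1) * unitRoot p + -((p : Cp) * C ^ 2 * T)) by linear_combination -hsum]
      refine (IsUltrametricDist.norm_add_le_max _ _).trans_lt (max_lt
        ((IsUltrametricDist.norm_add_le_max _ _).trans_lt (max_lt ?_ ?_))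
        ((IsUltrametricDist.norm_add_le_max _ _).trans_lt (max_lt ?_ ?_)))
      · rwa [norm_neg]
      · exact hN.trans_lt (pow_lt_one₀ (norm_nonneg _) norm_prime_lt two_ne_zero)
      · rw [norm_mul, norm_unitRoot hr, mul_one]
        exact he
      · rw [norm_neg, norm_mul, norm_mul, norm_pow, norm_padicGamma, norm_padicGamma,
          ← map_natCast (toCp p), norm_toCp]
        simpa using norm_prime_lt (p := p)
    have hdvd : (p : ℤ) ∣ 2 * (a + z.re) := by
      rw [mul_add]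
      exact (norm_intCast_lt_iff _).1 hlt
    have hpp : Prime (p : ℤ) := Nat.prime_iff_prime_int.1 hp.out
    have h5 : (5 : ℤ) ≤ p := by have := hp.out.two_le; omega
    rcases hpp.dvd_or_dvd hdvd with h2 | h2
    · have := Int.le_of_dvd (by norm_num) h2
      omega
    · have hsmall : |a + z.re| < p := by
        have hre2 : z.re ^ 2 ≤ (p : ℤ) := by
          rw [← hnorm, Zsqrtd.norm_def]
          nlinarith [mul_self_nonneg z.im]
        have := abs_add_le a z.re
        have hz2 : 4 * |z.re| < 3 * (p : ℤ) := by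
          nlinarith [sq_abs z.re, abs_nonneg z.re]
        omega
      have := Int.eq_zero_of_abs_lt_dvd h2 hsmall
      omega
  refine ⟨?_, hgN⟩
  rw [hre] at hsum
  push_cast at hsum
  linear_combination -(unitRoot p) * hsum - hprod

/-- **The theorem of Chowla, Dwork and Evans**, with the divisibility. -/
theorem sq_dvd_congruence {a b : ℤ} (h : (p : ℤ) = a ^ 2 + b ^ 2) (ha : a % 4 = 1) :
    (p : ℤ) ^ 2 ∣ 4 * a * ((2 * r).choose r : ℕ) -
      (2 ^ (4 * r) + 1) * (4 * a ^ 2 - (p : ℤ)) := by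
  obtain ⟨hq, -⟩ := unitRoot_spec hr h ha
  set u := unitRoot p
  set N : Cp := ((2 * r).choose r : Cp)
  set e : Cp := (-1) ^ r * 2 ^ (2 * r) with he
  rw [← norm_intCast_le_iff]
  push_cast
  have hee : e ^ 2 = 2 ^ (4 * r) := by
    rw [he, mul_pow, ← pow_mul, ← pow_mul, show 2 * r * 2 = 4 * r by ring,
      Even.neg_one_pow (by simp), one_mul]
  have hu2 : u - 2 * (a : Cp) = -(p : Cp) / u := by
    have hu0 : u ≠ 0 := norm_ne_zero_iff.1 (by rw [norm_unitRoot hr]; exact one_ne_zero)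
    field_simp
    linear_combination hq
  have hint : ∀ n : ℤ, ‖(n : Cp)‖ ≤ 1 := fun n => by
    rw [← map_intCast (toCp p) n, norm_toCp]
    exact PadicInt.norm_le_one _
  have hpn : ‖(p : Cp)‖ = ‖(p : ℤ_[p])‖ := by rw [← map_natCast (toCp p), norm_toCp]
  rw [show 4 * (a : Cp) * N - (2 ^ (4 * r) + 1) * (4 * (a : Cp) ^ 2 - (p : Cp)) =
    ((4 * a : ℤ) : Cp) * (N - e * u) + (-((4 * a ^ 2 - p : ℤ) : Cp) * (e - 1) ^ 2 +
      -(2 * e) * (u - 2 * (a : Cp)) ^ 2) by
    rw [← hee]
    push_cast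
    linear_combination (2 * e) * hq]
  have hne : ‖(2 : Cp) * e‖ ≤ 1 := by
    have e' : ((2 * ((-1) ^ r * 2 ^ (2 * r)) : ℤ) : Cp) = 2 * e := by rw [he]; push_cast; rfl
    rw [← e']
    exact hint _
  have he1 : ‖e - 1‖ ≤ ‖(p : ℤ_[p])‖ := by
    obtain ⟨k, hk⟩ := prime_dvd_two_pow hr
    have hk' := congrArg (fun t : ℤ => (t : Cp)) hk
    push_cast at hk'
    rw [he, hk', norm_mul, hpn]
    exact mul_le_of_le_one_right (norm_nonneg _) (hint k)
  refine (IsUltrametricDist.norm_add_le_max _ _).trans (max_le ?_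
    ((IsUltrametricDist.norm_add_le_max _ _).trans (max_le ?_ ?_)))
  · rw [norm_mul]
    exact (mul_le_of_le_one_left (norm_nonneg _) (hint _)).trans (norm_choose_sub hr)
  · rw [norm_mul, norm_neg, norm_pow]
    exact (mul_le_of_le_one_left (sq_nonneg _) (hint _)).trans
      (pow_le_pow_left₀ (norm_nonneg _) he1 2)
  · rw [norm_mul, norm_neg, hu2, norm_pow, norm_div, norm_neg, norm_unitRoot hr, div_one, hpn]
    exact mul_le_of_le_one_left (sq_nonneg _) hne

end Fermat.Agent.ChowlaDworkEvans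

end
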