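import Fermat.Agent.ChowlaDworkEvans.Gamma
import Mathlib.NumberTheory.LegendreSymbol.QuadraticReciprocity

/-!
# The central binomial coefficient by values of `Γ_p`

For `p = 4 r + 1` the binomial coefficient `(2 r choose r)` is modulo `p ^ 2` the number
`(-1) ^ r 2 ^ (2 r)` times `-Γ (1 / 4) ^ 2 Γ (1 / 2)`.
-/

set_option autoImplicit false
set_option linter.unusedSectionVars false

noncomputable section

open Finset FA.DworkRationality FA.GrossKoblitz Fermat.Agent.GaussProduct
open scoped Classical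

namespace Fermat.Agent.ChowlaDworkEvans

variable {p : ℕ} [hp : Fact p.Prime] {r : ℕ}

local notation "Cp" => ℂ_[p]

variable (p) in
/-- `1 / 4`. -/
def quarter : ℤ_[p] := Ring.inverse 4

variable (p) in
/-- The unit root: `-Γ (1 / 4) ^ 2 Γ (1 / 2)`. -/
def unitRoot : Cp :=
  -(padicGamma p (quarter p) ^ 2 * padicGamma p (2 * quarter p))

variable (hr : p = 4 * r + 1)
include hr

theorem ne_two : p ≠ 2 := by omega

theorem isUnit_four : IsUnit (4 : ℤ_[p]) := by
  have := isUnit_natCast (p := p) (m := 4) fun h => by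
    have := (Nat.prime_dvd_prime_iff_eq hp.out Nat.prime_two).1
      (hp.out.dvd_of_dvd_pow (show p ∣ 2 ^ 2 from h))
    omega
  exact_mod_cast this

theorem four_mul_quarter : 4 * quarter p = 1 :=
  Ring.mul_inverse_cancel _ (isUnit_four hr)

theorem prime_eq : (p : ℤ_[p]) = 4 * (r : ℤ_[p]) + 1 := by
  exact_mod_cast congrArg (Nat.cast (R := ℤ_[p])) hr

theorem gamma_quarter_mul :
    padicGamma p (quarter p) * padicGamma p (3 * quarter p) = (-1) ^ (r + 1) := by
  have h4 := four_mul_quarter hr
  have e : quarter p = (p : ℤ_[p]) * (-(3 * quarter p)) + ((3 * r + 1 : ℕ) : ℤ_[p]) := by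
    rw [prime_eq hr]
    push_cast
    linear_combination (3 * (r : ℤ_[p]) + 1) * h4
  have h := padicGamma_reflection (ne_two hr) (-(3 * quarter p)) (c := 3 * r + 1) (by omega)
    (by omega)
  rw [← e, show 1 - quarter p = 3 * quarter p by linear_combination -h4] at h
  rw [h, show 3 * r + 1 = r + 1 + 2 * r by ring, pow_add, pow_mul]
  norm_num

theorem gamma_half_sq : padicGamma p (2 * quarter p) ^ 2 = -1 := by
  have h4 := four_mul_quarter hr
  have e : 2 * quarter p = (p : ℤ_[p]) * (-(2 * quarter p)) + ((2 * r + 1 : ℕ) : ℤ_[p]) := by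
    rw [prime_eq hr]
    push_cast
    linear_combination (2 * (r : ℤ_[p]) + 1) * h4
  have h := padicGamma_reflection (ne_two hr) (-(2 * quarter p)) (c := 2 * r + 1) (by omega)
    (by omega)
  rw [← e, show 1 - 2 * quarter p = 2 * quarter p by linear_combination -h4, ← pow_two] at h
  rw [h, pow_succ, pow_mul]
  norm_num

theorem norm_unitRoot : ‖unitRoot p‖ = 1 := by
  simp [unitRoot, norm_padicGamma]

theorem padicGamma_natCast_small {n : ℕ} (hn : n < p) :
    padicGamma p ((n + 1 : ℕ) : ℤ_[p]) = (-1) ^ (n + 1) * (n.factorial : Cp) := by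
  rw [padicGamma_natCast]
  refine congrArg _ ?_
  have : ∀ m, m ≤ n → ∏ j ∈ (range (m + 1)).filter (fun j => ¬ p ∣ j), (j : Cp) =
      (m.factorial : Cp) := fun m hm => by
    induction m with
    | zero => simp [Finset.filter_singleton]
    | succ m ih =>
      rw [range_add_one, filter_insert, if_pos (fun h => by
        have := Nat.le_of_dvd m.succ_pos h
        omega), prod_insert (by simp), ih (by omega), Nat.factorial_succ]
      push_cast
      rfl
  exact this n le_rfl

/-- **The binomial coefficient.** -/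
theorem norm_choose_sub :
    ‖((2 * r).choose r : Cp) - (-1) ^ r * 2 ^ (2 * r) * unitRoot p‖ ≤ ‖(p : ℤ_[p])‖ ^ 2 := by
  have hp2 := ne_two hr
  have h4 := four_mul_quarter hr
  have hpe := prime_eq hr
  set q := quarter p with hq
  set s : ℤ_[p] := (p : ℤ_[p]) * q with hs
  set N : Cp := ((2 * r).choose r : Cp) with hN
  set H := padicGamma p ((2 * r + 1 : ℕ) : ℤ_[p]) with hH
  set A := padicGamma p (3 * q + s) with hA
  -- the binomial coefficient
  have hAr : A = padicGamma p ((r + 1 : ℕ) : ℤ_[p]) := by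
    rw [hA]
    refine congrArg (padicGamma p) ((isUnit_four hr).mul_left_cancel ?_)
    rw [hs, hpe]
    push_cast
    linear_combination (3 + (4 * (r : ℤ_[p]) + 1)) * h4
  have hNA : N * A ^ 2 = -H := by
    rw [hAr, hH, padicGamma_natCast_small hr (by omega : r < p),
      padicGamma_natCast_small hr (by omega : 2 * r < p), hN,
      ← Nat.choose_mul_factorial_mul_factorial (show r ≤ 2 * r by omega),
      show 2 * r - r = r by omega, mul_pow, ← pow_mul, Even.neg_one_pow (by simp),
      Odd.neg_one_pow (by simp)]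
    push_cast
    ring
  -- multiplication
  have hm : ¬ p ∣ 2 := fun h => hp2 ((Nat.prime_dvd_prime_iff_eq hp.out Nat.prime_two).1 h)
  have hmul : padicGamma p (q + s) * A * 2 ^ (2 * r) = H * padicGamma p (2 * q) := by
    have hx : ((2 * r + 1 : ℕ) : ℤ_[p]) = (p : ℤ_[p]) * 1 - ((2 * r : ℕ) : ℤ_[p]) := by
      rw [hpe]; push_cast; ring
    have h := gammaProd_eq hm ((2 * r + 1 : ℕ) : ℤ_[p])
    rw [hx, gammaFactor_mul_sub hm (by omega), ← hx] at h
    have hu := isUnit_natCast (p := p) hm
    have hsd : ∀ {x y : ℤ_[p]} {l : ℕ}, 2 * y = x + (l : ℤ_[p]) → shiftDiv 2 x l = y :=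
      fun {x y l} h => hu.mul_left_cancel (by rw [mul_shiftDiv hm, ← h]; norm_num)
    simp only [gammaProd, prod_range_succ, prod_range_zero, one_mul] at h
    rw [hsd (x := ((2 * r + 1 : ℕ) : ℤ_[p])) (y := q + s) (l := 0) (by
        rw [hs, hpe]; push_cast; linear_combination (2 * (r : ℤ_[p]) + 1) * h4),
      hsd (x := ((2 * r + 1 : ℕ) : ℤ_[p])) (y := 3 * q + s) (l := 1) (by
        rw [hs, hpe]; push_cast; linear_combination (2 * (r : ℤ_[p]) + 2) * h4),
      hsd (x := 0) (y := 0) (l := 0) (by simp),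
      hsd (x := 0) (y := 2 * q) (l := 1) (by push_cast; linear_combination h4),
      padicGamma_zero, ← hA, ← hH, Nat.cast_ofNat] at h
    have hE : toCp p (stepChar hm 1) * (2 : Cp) ^ (p - 1) = 1 := by
      have := congrArg (toCp p) (stepChar_natCast hm 1)
      simpa [map_ofNat] using this
    rw [show p - 1 = 2 * r + 2 * r by omega, pow_add] at hE
    linear_combination (2 : Cp) ^ (2 * r) * h + H * padicGamma p (2 * q) * hE
  -- reflection and the second difference
  have hB : padicGamma p (q + s) * padicGamma p (3 * q - s) = (-1) ^ (r + 1) := by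
    have := reflectProd_congr hp2 (x := q + s) (y := q)
      (by rw [add_sub_cancel_left, hs]; exact dvd_mul_right _ _)
    simp only [reflectProd, show 1 - (q + s) = 3 * q - s by linear_combination -h4,
      show 1 - q = 3 * q by linear_combination -h4] at this
    rw [this]
    exact gamma_quarter_mul hr
  have hdiff : ‖padicGamma p (3 * q) ^ 2 - A * padicGamma p (3 * q - s)‖ ≤ ‖(p : ℤ_[p])‖ ^ 2 := by
    have h := padicGamma_second_difference hp2 (s₁ := s) (s₂ := -s) ⟨q, hs⟩
      ((dvd_neg).2 ⟨q, hs⟩) (3 * q)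
    rw [add_neg_cancel_right, ← sub_eq_add_neg, norm_neg, ← pow_two, ← pow_two] at h
    refine h.trans (pow_le_pow_left₀ (norm_nonneg _) ?_ 2)
    rw [hs, norm_mul]
    exact mul_le_of_le_one_right (norm_nonneg _) (PadicInt.norm_le_one _)
  set Q : Cp := (-1) ^ r * 2 ^ (2 * r) * unitRoot p with hQ
  have hT := gamma_half_sq hr
  have hC := gamma_quarter_mul hr
  rw [← hq] at hT hC
  have hkey : N * (A * padicGamma p (3 * q - s)) = Q * padicGamma p (3 * q) ^ 2 := by
    refine mul_right_cancel₀ (b := A) (norm_ne_zero_iff.1 (by simp [hA, norm_padicGamma])) ?_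
    rw [hQ, unitRoot, ← hq]
    have h2 : ((-1 : Cp) ^ (r + 1)) ^ 2 = 1 := by rw [← pow_mul]; simp
    linear_combination padicGamma p (3 * q - s) * hNA -
      (padicGamma p (2 * q) * padicGamma p (3 * q - s)) * hmul +
      2 ^ (2 * r) * padicGamma p (2 * q) * A * hB -
      padicGamma p (3 * q - s) * H * hT + (-1) ^ r * 2 ^ (2 * r) * padicGamma p (2 * q) * A *
        (padicGamma p (quarter p) * padicGamma p (3 * q) + (-1) ^ (r + 1)) * hC +
      (-1) ^ r * 2 ^ (2 * r) * padicGamma p (2 * q) * A * h2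
  have hnAB : ‖A * padicGamma p (3 * q - s)‖ = 1 := by simp [hA, norm_padicGamma]
  have e : (N - Q) * (A * padicGamma p (3 * q - s)) =
      Q * (padicGamma p (3 * q) ^ 2 - A * padicGamma p (3 * q - s)) := by
    linear_combination hkey
  have h := congrArg norm e
  rw [norm_mul, hnAB, mul_one, norm_mul] at h
  rw [h]
  refine le_trans (mul_le_of_le_one_left (norm_nonneg _) ?_) hdiff
  rw [hQ, norm_mul, norm_mul, norm_unitRoot hr, norm_pow, norm_pow, norm_neg, norm_one,
    show (2 : Cp) = ((2 : ℕ) : Cp) by norm_num, norm_natCast_eq_one hm]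
  simp

/-- `(2 / p) = (-1) ^ r`. -/
theorem prime_dvd_two_pow : (p : ℤ) ∣ (-1) ^ r * 2 ^ (2 * r) - 1 := by
  rw [← ZMod.intCast_zmod_eq_zero_iff_dvd]
  have h := legendreSym.eq_pow p 2
  rw [legendreSym.at_two (ne_two hr), show p / 2 = 2 * r by omega, ZMod.χ₈_nat_eq_if_mod_eight,
    if_neg (by omega)] at h
  push_cast at h ⊢
  rw [← h]
  rcases Nat.even_or_odd r with hev | hodd
  · obtain ⟨t, ht⟩ := hev
    rw [if_pos (by omega), Even.neg_one_pow ⟨t, ht⟩]
    simp
  · obtain ⟨t, ht⟩ := hodd
    rw [if_neg (by omega), Odd.neg_one_pow ⟨t, ht⟩]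
    simp

end Fermat.Agent.ChowlaDworkEvans

end
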